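import Mathlib

/-!
# KL-B, Kummer layer, nodes K6 and K7
-/

namespace Fermat.Agent.KLB

variable {F E : Type*} [Field F] [Field E] [Algebra F E]

/-- A nontrivial `n`-th root of unity `u` has `v (1 - u) = 1` as soon as `v n = 1`. -/
theorem valuation_one_sub_root_eq_one (VE : ValuationSubring E) (n : ℕ)
    (hnV : VE.valuation (n : E) = 1) (u : E) (hu : u ^ n = 1) (hu1 : u ≠ 1) (hn : n ≠ 0) :
    VE.valuation (1 - u) = 1 := by
  set v := VE.valuation with hv
  have hvu : v u = 1 := by
    have : v u ^ n = 1 := by rw [← map_pow, hu, map_one]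
    exact (pow_eq_one_iff.mp this).resolve_right hn
  have hle : v (1 - u) ≤ 1 := by
    refine (v.map_sub _ _).trans ?_
    simp [hvu]
  refine le_antisymm hle (not_lt.mp fun hlt => ?_)
  -- the geometric sum vanishes
  have hgeom : ∑ i ∈ Finset.range n, u ^ i = 0 := by
    have h1 : (∑ i ∈ Finset.range n, u ^ i) * (u - 1) = 0 := by
      rw [geom_sum_mul, hu, sub_self]
    exact (mul_eq_zero.mp h1).resolve_right (sub_ne_zero.mpr hu1)
  have hnsum : (n : E) = ∑ i ∈ Finset.range n, (1 - u ^ i) := by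
    rw [Finset.sum_sub_distrib, hgeom]
    simp
  have hterm : ∀ i ∈ Finset.range n, v (1 - u ^ i) < 1 := by
    intro i _
    have h2 : 1 - u ^ i = -((∑ j ∈ Finset.range i, u ^ j) * (u - 1)) := by
      rw [geom_sum_mul]; ring
    have h3 : v (∑ j ∈ Finset.range i, u ^ j) ≤ 1 := by
      apply v.map_sum_le
      intro j _
      rw [map_pow, hvu, one_pow]
    have h4 : v (u - 1) < 1 := by rwa [← v.map_sub_swap]
    rw [h2, Valuation.map_neg, map_mul]
    calc v (∑ j ∈ Finset.range i, u ^ j) * v (u - 1) ≤ 1 * v (u - 1) := mul_le_mul_left h3 _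
      _ = v (u - 1) := one_mul _
      _ < 1 := h4
  have : v (n : E) < 1 := by
    rw [hnsum]
    exact v.map_sum_lt one_ne_zero hterm
  rw [hnV] at this
  exact lt_irrefl _ this

/-- K6: an automorphism preserving the valuation ring `VE` cannot multiply `W ≡ (root of unity)`
by a nontrivial root of unity of order prime to the residue characteristic. -/
theorem root_of_unity_eq_one (VE : ValuationSubring E) (σ : E ≃ₐ[F] E)
    (hσ : ∀ y : E, y ∈ VE ↔ σ y ∈ VE) (n : ℕ) (hn : n ≠ 0) (hnV : VE.valuation (n : E) = 1)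
    (ζ : F) (hζ : IsPrimitiveRoot ζ n) (W : E) (hW : VE.valuation (W ^ n - 1) < 1)
    (ζ' : F) (hζ' : ζ' ^ n = 1) (hσW : σ W = algebraMap F E ζ' * W) : ζ' = 1 := by
  by_contra hne
  set v := VE.valuation with hv
  -- Step 1: `W` is close to a root of unity of `F`
  obtain ⟨z0, hz0, hWz0⟩ : ∃ z0 : F, z0 ^ n = 1 ∧ v (W - algebraMap F E z0) < 1 := by
    by_contra hcon
    push Not at hcon
    have hprod : W ^ n - 1 = ∏ z ∈ Polynomial.nthRootsFinset n (1 : F), (W - algebraMap F E z) := by
      have := congrArg (Polynomial.aeval W)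
        (Polynomial.X_pow_sub_one_eq_prod (Nat.pos_of_ne_zero hn) hζ)
      simpa [map_prod] using this
    have h1 : 1 ≤ v (W ^ n - 1) := by
      rw [hprod, map_prod]
      apply Finset.one_le_prod'
      intro z hz
      exact hcon z ((Polynomial.mem_nthRootsFinset (Nat.pos_of_ne_zero hn) 1).mp hz)
    exact absurd hW (not_lt.mpr h1)
  set a : E := algebraMap F E z0 with ha
  set u : E := algebraMap F E ζ' with hu
  have hun : u ^ n = 1 := by rw [hu, ← map_pow, hζ', map_one]
  have han : a ^ n = 1 := by rw [ha, ← map_pow, hz0, map_one]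
  have hu1 : u ≠ 1 := fun h => hne ((algebraMap F E).injective (by rw [← hu, h, map_one]))
  have hvu : v u = 1 := by
    have : v u ^ n = 1 := by rw [← map_pow, hun, map_one]
    exact (pow_eq_one_iff.mp this).resolve_right hn
  have hva : v a = 1 := by
    have : v a ^ n = 1 := by rw [← map_pow, han, map_one]
    exact (pow_eq_one_iff.mp this).resolve_right hn
  have h1u : v (1 - u) = 1 := valuation_one_sub_root_eq_one VE n hnV u hun hu1 hn
  -- Step 2: `W - u a` is a unit
  have hunit : v (W - u * a) = 1 := by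
    have h2 : W - u * a = (W - a) + a * (1 - u) := by ring
    have h3 : v (a * (1 - u)) = 1 := by rw [map_mul, hva, h1u, one_mul]
    rw [h2, v.map_add_eq_of_lt_right (by rw [h3]; exact hWz0), h3]
  have hmem : (W - u * a)⁻¹ ∈ VE := by
    rw [← VE.valuation_le_one_iff, map_inv₀, ← hv, hunit, inv_one]
  have hne0 : W - u * a ≠ 0 := by
    intro h
    rw [h, map_zero] at hunit
    exact zero_ne_one hunit
  have hσ1 : σ (W - u * a) = u * (W - a) := by
    rw [map_sub, map_mul, hσW, hu, ha, AlgEquiv.commutes, AlgEquiv.commutes]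
    ring
  have hσne : u * (W - a) ≠ 0 := by
    rw [← hσ1]
    exact (map_ne_zero_iff σ σ.injective).mpr hne0
  have h4 := (hσ _).mp hmem
  rw [map_inv₀, hσ1, ← VE.valuation_le_one_iff, map_inv₀, ← hv, map_mul, hvu, one_mul] at h4
  have h5 : v (W - a) ≠ 0 := by
    rw [Valuation.ne_zero_iff]
    exact right_ne_zero_of_mul hσne
  have h6 : 1 ≤ v (W - a) := (inv_le_one₀ (zero_lt_iff.mpr h5)).mp h4
  exact absurd hWz0 (not_lt.mpr h6)

/-- K7: Kummer theory: if `E = F(W)`, `W ^ n ∈ F`, `μ_n ⊆ F` and `W ∉ F`, some automorphism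
multiplies `W` by a nontrivial `n`-th root of unity. -/
theorem exists_algEquiv_of_not_mem [FiniteDimensional F E] (n : ℕ) (hn : n ≠ 0)
    (ζ : F) (hζ : IsPrimitiveRoot ζ n) (W : E) (hgen : Algebra.adjoin F {W} = ⊤) (h : F)
    (hW : W ^ n = algebraMap F E h) (hh0 : h ≠ 0) (hWF : W ∉ (algebraMap F E).range) :
    ∃ (σ : E ≃ₐ[F] E) (ζ' : F), ζ' ^ n = 1 ∧ ζ' ≠ 1 ∧ σ W = algebraMap F E ζ' * W := by
  have : NeZero n := ⟨hn⟩
  have hnF : (n : F) ≠ 0 := (hζ.neZero').out
  have hsep : (Polynomial.X ^ n - Polynomial.C h : Polynomial F).Separable :=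
    Polynomial.separable_X_pow_sub_C h hnF hh0
  have hζE : IsPrimitiveRoot (algebraMap F E ζ) n :=
    hζ.map_of_injective (algebraMap F E).injective
  have hW0 : W ≠ 0 := by
    rintro rfl
    rw [zero_pow hn] at hW
    exact hh0 ((map_eq_zero (algebraMap F E)).mp hW.symm)
  have hp0 : (Polynomial.X ^ n - Polynomial.C h : Polynomial F) ≠ 0 :=
    Polynomial.X_pow_sub_C_ne_zero (Nat.pos_of_ne_zero hn) h
  have : (Polynomial.X ^ n - Polynomial.C h : Polynomial F).IsSplittingField F E := by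
    refine ⟨?_, ?_⟩
    · have := X_pow_sub_C_splits_of_isPrimitiveRoot hζE hW
      simpa using this
    · rw [eq_top_iff, ← hgen]
      apply Algebra.adjoin_mono
      rw [Set.singleton_subset_iff, Polynomial.mem_rootSet]
      refine ⟨hp0, ?_⟩
      simp [hW]
  have : IsGalois F E := IsGalois.of_separable_splitting_field hsep
  obtain ⟨σ, hσ⟩ : ∃ σ : E ≃ₐ[F] E, σ W ≠ W := by
    by_contra hcon
    push Not at hcon
    have := (IsGalois.mem_bot_iff_fixed W).mpr hcon
    rw [IntermediateField.mem_bot] at this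
    exact hWF this
  have h1 : (σ W / W) ^ n = 1 := by
    rw [div_pow, ← map_pow, hW, AlgEquiv.commutes, div_self]
    rw [← hW]
    exact pow_ne_zero n hW0
  obtain ⟨i, -, hi⟩ := hζE.eq_pow_of_pow_eq_one h1
  refine ⟨σ, ζ ^ i, ?_, ?_, ?_⟩
  · rw [← pow_mul, mul_comm, pow_mul, hζ.pow_eq_one, one_pow]
  · intro h2
    apply hσ
    rw [← map_pow, h2, map_one] at hi
    exact (div_eq_one_iff_eq hW0).mp hi.symm
  · rw [map_pow, hi, div_mul_cancel₀ _ hW0]

end Fermat.Agent.KLB
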