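import Fermat.Agent.KLB.Abs.Defs

/-!
# KL-B, Kummer layer, node K3/K4
A simple extension generated by a root `θ` of a monic polynomial `P` with `O`-integral coefficients
such that `1 / P'(θ)` is `O`-integral is unramified in the sense of `Unr`.
-/

namespace Fermat.Agent.KLB

open Polynomial

variable {O F E : Type*} [CommRing O] [Field F] [Field E] [Algebra O F] [Algebra O E] [Algebra F E]
  [IsScalarTower O F E]

/-- The value at an integral element of a polynomial with integral coefficients is integral. -/
theorem isIntegral_aeval_of_coeff {θ : E} (hθ : IsIntegral O θ) (f : F[X])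
    (hf : ∀ i, IsIntegral O (f.coeff i)) : IsIntegral O (aeval θ f) := by
  rw [aeval_eq_sum_range]
  refine IsIntegral.sum _ fun i _ => ?_
  rw [Algebra.smul_def]
  exact (hf i).algebraMap.mul (hθ.pow i)

/-- A monic divisor of a monic polynomial with integral coefficients has integral coefficients. -/
theorem isIntegral_coeff_of_dvd_of_coeff (P g : F[X]) (hP : P.Monic) (hg : g.Monic)
    (hPc : ∀ i, IsIntegral O (P.coeff i)) (hgP : g ∣ P) (i : ℕ) : IsIntegral O (g.coeff i) := by
  obtain ⟨P₀, hP₀, -, hP₀m⟩ :=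
    lifts_and_natDegree_eq_and_monic (p := P) (f := algebraMap (integralClosure O F) F)
      (P.lifts_iff_coeff_lifts.mpr (by simpa)) hP
  exact isIntegral_trans _ (isIntegral_coeff_of_dvd P₀ g hP₀m hg (hP₀ ▸ hgP) i)

/-- The coefficients of `minpoly / (X - θ)` are integral. -/
theorem isIntegral_coeff_minpolyDiv {θ : E} (hθ : IsIntegral O θ)
    (hg : ∀ i, IsIntegral O ((minpoly F θ).coeff i)) (i : ℕ) :
    IsIntegral O ((minpolyDiv F θ).coeff i) := by
  by_contra H
  have : ∀ j, ¬ IsIntegral O ((minpolyDiv F θ).coeff (i + j)) := by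
    intro j
    induction j with
    | zero => exact H
    | succ j IH =>
      intro H'
      apply IH
      rw [coeff_minpolyDiv]
      exact (hg _).algebraMap.add (H'.mul hθ)
  apply this (natDegree (minpolyDiv F θ) + 1)
  rw [coeff_eq_zero_of_natDegree_lt (by omega)]
  exact isIntegral_zero

variable [FiniteDimensional F E] [Algebra.IsSeparable F E]

theorem Unr.of_root (θ : E) (hgen : Algebra.adjoin F {θ} = ⊤) (P : F[X]) (hP : P.Monic)
    (hPc : ∀ i, IsIntegral O (P.coeff i)) (hroot : aeval θ P = 0)
    (hder0 : aeval θ (derivative P) ≠ 0) (hder : IsIntegral O (aeval θ (derivative P))⁻¹) :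
    Unr O F E := by
  classical
  have hθF : IsIntegral F θ := Algebra.IsIntegral.isIntegral θ
  have hdeg : P.natDegree ≠ 0 := by
    intro h0
    rw [Polynomial.Monic.natDegree_eq_zero hP] at h0
    rw [h0, map_one] at hroot
    exact one_ne_zero hroot
  have hθ : IsIntegral O θ := by
    refine IsIntegral.of_aeval_monic_of_isIntegral_coeff (p := P.map (algebraMap F E))
      (hP.map _) (by rwa [hP.natDegree_map]) ?_ ?_
    · rw [eval_map_algebraMap, hroot]
      exact isIntegral_zero
    · intro i
      rw [coeff_map]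
      exact (hPc i).algebraMap
  obtain ⟨q, hq⟩ := minpoly.dvd F θ hroot
  have hgm : (minpoly F θ).Monic := minpoly.monic hθF
  have hqm : q.Monic := hgm.of_mul_monic_left (hq ▸ hP)
  have hgc : ∀ i, IsIntegral O ((minpoly F θ).coeff i) :=
    isIntegral_coeff_of_dvd_of_coeff P _ hP hgm hPc ⟨q, hq⟩
  have hqc : ∀ i, IsIntegral O (q.coeff i) :=
    isIntegral_coeff_of_dvd_of_coeff P _ hP hqm hPc (Dvd.intro_left _ hq.symm)
  have hderiv : aeval θ (derivative P) = aeval θ (derivative (minpoly F θ)) * aeval θ q := by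
    rw [hq, derivative_mul, map_add, map_mul, map_mul, minpoly.aeval, zero_mul, add_zero]
  have hg0 : aeval θ (derivative (minpoly F θ)) ≠ 0 := by
    intro h0
    rw [hderiv, h0, zero_mul] at hder0
    exact hder0 rfl
  have hinv : IsIntegral O (aeval θ (derivative (minpoly F θ)))⁻¹ := by
    have h1 : (aeval θ (derivative (minpoly F θ)))⁻¹ =
        aeval θ q * (aeval θ (derivative P))⁻¹ := by
      have hq0 : aeval θ q ≠ 0 := by
        intro h0
        rw [hderiv, h0, mul_zero] at hder0
        exact hder0 rfl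
      rw [hderiv]
      field_simp
    rw [h1]
    exact (isIntegral_aeval_of_coeff hθ q hqc).mul hder
  let pb : PowerBasis F E := PowerBasis.ofAdjoinEqTop hθF hgen
  have hpb : pb.gen = θ := PowerBasis.ofAdjoinEqTop_gen hθF hgen
  intro y hy
  rw [← pb.basis.traceDual.sum_repr y]
  refine IsIntegral.sum _ fun i _ => ?_
  rw [Module.Basis.traceDual_repr_apply, Module.Basis.traceDual_powerBasis_eq, Algebra.smul_def,
    Algebra.traceForm_apply, pb.basis_eq_pow, hpb, div_eq_mul_inv]
  exact (hy _ (hθ.pow _)).algebraMap.mul ((isIntegral_coeff_minpolyDiv hθ hgc _).mul hinv)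

/-- Kummer extensions by a unit, of degree invertible in `O`. -/
theorem Unr.of_kummer (W : E) (hgen : Algebra.adjoin F {W} = ⊤) (n : ℕ) (hn : n ≠ 0) (h : F)
    (hW : W ^ n = algebraMap F E h) (hh0 : h ≠ 0) (hh : IsIntegral O h) (hh' : IsIntegral O h⁻¹)
    (hn0 : (n : F) ≠ 0) (hn' : IsIntegral O ((n : F)⁻¹)) : Unr O F E := by
  have hhE : algebraMap F E h ≠ 0 := by simpa using hh0
  have hnE : (n : E) ≠ 0 := by
    have := (map_ne_zero (algebraMap F E)).2 hn0
    simpa using this
  have hW0 : W ≠ 0 := by
    rintro rfl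
    rw [zero_pow hn] at hW
    exact hhE hW.symm
  have hWint : IsIntegral O W := by
    refine IsIntegral.of_pow (Nat.pos_of_ne_zero hn) ?_
    rw [hW]
    exact hh.algebraMap
  have hd : aeval W (derivative (X ^ n - C h : F[X])) = (n : E) * W ^ (n - 1) := by
    rw [derivative_sub, derivative_C, sub_zero, derivative_X_pow, map_mul, map_pow, aeval_X,
      aeval_C, map_natCast]
  refine Unr.of_root W hgen (X ^ n - C h) (monic_X_pow_sub_C h hn) ?_ ?_ ?_ ?_
  · intro i
    rw [coeff_sub, coeff_X_pow, coeff_C]
    refine IsIntegral.sub ?_ ?_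
    · split_ifs
      · exact isIntegral_one
      · exact isIntegral_zero
    · split_ifs
      · exact hh
      · exact isIntegral_zero
  · simp [hW]
  · rw [hd]
    exact mul_ne_zero hnE (pow_ne_zero _ hW0)
  · rw [hd]
    have h1 : ((n : E) * W ^ (n - 1))⁻¹ =
        W * (algebraMap F E ((n : F)⁻¹) * algebraMap F E h⁻¹) := by
      have h2 : W ^ (n - 1) * W = algebraMap F E h := by
        rw [← pow_succ, Nat.sub_add_cancel (Nat.pos_of_ne_zero hn), hW]
      rw [map_inv₀, map_inv₀, map_natCast, ← h2]
      have h3 : W ^ (n - 1) ≠ 0 := pow_ne_zero _ hW0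
      field_simp
    rw [h1]
    exact hWint.mul (hn'.algebraMap.mul hh'.algebraMap)

end Fermat.Agent.KLB
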