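import Fermat.Agent.KLB.Abs.Loc

/-!
# KL-B, Kummer layer, nodes K2 and K5

* `isIntegral_of_mem_of_unique`: if `VF` is the only valuation subring of `F` over the discrete
  valuation ring `Oπ`, then `VF` is the integral closure of `Oπ`;
* `exists_valuationSubring_comap_eq`: valuation subrings extend to field extensions.

Proofs: helper279.
-/

set_option linter.unusedSectionVars false

namespace Fermat.Agent.KLB

section K2

variable {S L F : Type*} [CommRing S] [IsDomain S] [IsIntegrallyClosed S] [IsNoetherianRing S]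
  [Field L] [Field F] [Algebra S L] [IsFractionRing S L] [Algebra L F] [Algebra S F]
  [IsScalarTower S L F] [FiniteDimensional L F]
  {π : S} (hπ : Prime π) {Oπ : Subring L} (hOπ : IsLocSub (ndvd hπ) Oπ)

include hOπ

omit [IsIntegrallyClosed S] in
/-- Every element of `L` is in `Oπ`, or becomes a unit of `Oπ` after multiplication by a positive
power of `π`. -/
theorem IsLocSub.mem_or_exists_pow_mul (a : L) :
    a ∈ Oπ ∨ ∃ (k : ℕ) (u : L), u ∈ Oπ ∧ u⁻¹ ∈ Oπ ∧ u ≠ 0 ∧
      a * algebraMap S L π ^ (k + 1) = u := by
  obtain ⟨s, t, ht, rfl⟩ := IsFractionRing.div_surjective (A := S) a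
  have ht0 : t ≠ 0 := nonZeroDivisors.ne_zero ht
  by_cases hs0 : s = 0
  · left
    rw [hs0, map_zero, zero_div]
    exact zero_mem _
  obtain ⟨m, s', hs', rfl⟩ := WfDvdMonoid.max_power_factor hs0 hπ.irreducible
  obtain ⟨n, t', ht', rfl⟩ := WfDvdMonoid.max_power_factor ht0 hπ.irreducible
  have hinj := IsFractionRing.injective S L
  have hπ0 : algebraMap S L π ≠ 0 := by
    rw [Ne, map_eq_zero_iff _ hinj]
    exact hπ.ne_zero
  have hs'0 : algebraMap S L s' ≠ 0 := by
    rw [Ne, map_eq_zero_iff _ hinj]
    rintro rfl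
    exact hs' (dvd_zero _)
  have ht'0 : algebraMap S L t' ≠ 0 := by
    rw [Ne, map_eq_zero_iff _ hinj]
    rintro rfl
    exact ht' (dvd_zero _)
  rcases le_or_gt n m with hnm | hnm
  · left
    obtain ⟨j, rfl⟩ := Nat.exists_eq_add_of_le hnm
    refine (hOπ _).mpr ⟨t', ht', π ^ j * s', ?_⟩
    simp only [map_mul, map_pow]
    field_simp
    ring
  · right
    obtain ⟨j, rfl⟩ := Nat.exists_eq_add_of_lt hnm
    refine ⟨j, algebraMap S L s' / algebraMap S L t', ?_, ?_, div_ne_zero hs'0 ht'0, ?_⟩
    · refine (hOπ _).mpr ⟨t', ht', s', ?_⟩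
      field_simp
    · refine (hOπ _).mpr ⟨s', hs', t', ?_⟩
      field_simp
    · simp only [map_mul, map_pow]
      field_simp
      ring

/-- If `VF` is the only valuation subring of `F` over the discrete valuation ring `Oπ`, then `VF`
is the integral closure of `Oπ`. -/
theorem isIntegral_of_mem_of_unique (VF : ValuationSubring F)
    (huniq : ∀ V : ValuationSubring F, V.toSubring.comap (algebraMap L F) = Oπ → V = VF)
    {y : F} (hy : y ∈ VF) : IsIntegral Oπ y := by
  by_contra hcon
  have hyR : y ∉ (integralClosure Oπ F).toSubring := hcon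
  obtain ⟨V, hRV, hyV⟩ := Subring.exists_le_valuationSubring_of_isIntegrallyClosedIn hyR
  -- the image of `Oπ` lies in `V`
  have hOV : ∀ a ∈ Oπ, algebraMap L F a ∈ V := fun a ha =>
    hRV ((integralClosure Oπ F).algebraMap_mem ⟨a, ha⟩)
  set P : F := algebraMap L F (algebraMap S L π) with hP
  have hπ0 : algebraMap S L π ≠ 0 := by
    rw [Ne, map_eq_zero_iff _ (IsFractionRing.injective S L)]
    exact hπ.ne_zero
  have hP0 : P ≠ 0 := by
    rw [hP, Ne, map_eq_zero]
    exact hπ0
  have hPV : P ∈ V := hOV _ (hOπ.algebraMap_mem π)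
  by_cases hinv : P⁻¹ ∈ V
  · -- then `V` contains `L`, hence everything
    have hLV : ∀ a : L, algebraMap L F a ∈ V.toSubring := by
      intro a
      rcases hOπ.mem_or_exists_pow_mul hπ a with ha | ⟨k, u, hu, -, -, hau⟩
      · exact hOV a ha
      · have h1 : algebraMap L F a = algebraMap L F u * P⁻¹ ^ (k + 1) := by
          rw [← hau, map_mul, map_pow, ← hP, inv_pow, mul_assoc,
            mul_inv_cancel₀ (pow_ne_zero _ hP0), mul_one]
        rw [h1]
        exact V.mul_mem _ _ (hOV u hu) (pow_mem hinv _)
    have : IsIntegrallyClosedIn V.toSubring F := inferInstanceAs (IsIntegrallyClosedIn V F)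
    have h2 : (integralClosure L F).toSubring ≤ V.toSubring :=
      Subring.integralClosure_le_iff.mpr hLV
    exact hyV (h2 (Algebra.IsIntegral.isIntegral (R := L) y))
  · -- then `V` lies over `Oπ`
    have hcomap : V.toSubring.comap (algebraMap L F) = Oπ := by
      ext a
      constructor
      · intro ha
        have ha' : algebraMap L F a ∈ V := ha
        rcases hOπ.mem_or_exists_pow_mul hπ a with ha0 | ⟨k, u, -, hu, hu0, hau⟩
        · exact ha0
        · exfalso
          apply hinv
          have h1 : P⁻¹ = algebraMap L F a * P ^ k * algebraMap L F u⁻¹ := by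
            have hu0' : algebraMap L F u ≠ 0 := by
              rw [Ne, map_eq_zero]
              exact hu0
            rw [map_inv₀, ← hau, map_mul, map_pow, ← hP]
            rw [← hau, map_mul, map_pow, ← hP] at hu0'
            have ha0 : algebraMap L F a ≠ 0 := left_ne_zero_of_mul hu0'
            field_simp
            ring
          rw [h1]
          exact V.mul_mem _ _ (V.mul_mem _ _ ha' (pow_mem hPV _)) (hOV _ hu)
      · intro ha
        exact hOV a ha
    rw [huniq V hcomap] at hyV
    exact hyV hy

end K2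

section K5

variable {F E : Type*} [Field F] [Field E] [Algebra F E]

/-- Valuation subrings extend to field extensions. -/
theorem exists_valuationSubring_comap_eq (VF : ValuationSubring F) :
    ∃ VE : ValuationSubring E, VE.comap (algebraMap F E) = VF := by
  obtain ⟨VE, h, hloc⟩ :=
    IsLocalRing.exists_factor_valuationRing ((algebraMap F E).comp VF.subtype)
  refine ⟨VE, ?_⟩
  ext a
  rw [ValuationSubring.mem_comap]
  constructor
  · intro ha
    by_contra hcon
    have ha0 : a ≠ 0 := by
      rintro rfl
      exact hcon VF.zero_mem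
    have hainv : a⁻¹ ∈ VF := (VF.mem_or_inv_mem a).resolve_left hcon
    -- the image of `a⁻¹` is a unit of `VE`
    have hunit : IsUnit (((algebraMap F E).comp VF.subtype).codRestrict VE.toSubring h
        ⟨a⁻¹, hainv⟩) := by
      refine isUnit_iff_exists_inv.mpr ⟨⟨algebraMap F E a, ha⟩, ?_⟩
      apply Subtype.ext
      show algebraMap F E a⁻¹ * algebraMap F E a = 1
      rw [← map_mul, inv_mul_cancel₀ ha0, map_one]
    have hunit' : IsUnit (⟨a⁻¹, hainv⟩ : VF) := hloc.map_nonunit _ hunit
    obtain ⟨b, hb⟩ := isUnit_iff_exists_inv.mp hunit'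
    have hb' : a⁻¹ * (b : F) = 1 := congrArg Subtype.val hb
    have : (b : F) = a := by
      field_simp at hb'
      exact hb'
    exact hcon (this ▸ b.2)
  · intro ha
    exact h ⟨a, ha⟩

end K5

end Fermat.Agent.KLB
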