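import Fermat.Agent.KLB.Abs.Main2
import Fermat.Agent.KLB.Kum.Root
import Fermat.Agent.KLB.Kum.Val
import Fermat.Agent.KLB.Kum.Fin

/-!
# KL-B, Kummer layer: the abstract key lemma
-/

namespace Fermat.Agent.KLB

/-- The bottom part of a tower with bounded codifferent has bounded codifferent. -/
theorem TameBound.bot {O L F E : Type*} [CommRing O] [Field L] [Field F] [Field E]
    [Algebra O L] [Algebra O F] [Algebra O E] [Algebra L F] [Algebra F E] [Algebra L E]
    [IsScalarTower L F E] [IsScalarTower O F E] [FiniteDimensional L F] [FiniteDimensional F E]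
    {κ : F} {N : ℕ} (h : TameBound O L E (algebraMap F E κ) N) : TameBound O L F κ N := by
  intro y hy
  have : IsIntegral O (algebraMap F E κ ^ N * algebraMap F E y ^ (N + 1)) := by
    refine h _ fun z hz => ?_
    rw [← Algebra.trace_trace (S := F), ← Algebra.smul_def, map_smul, smul_eq_mul]
    exact hy _ (Algebra.isIntegral_trace hz)
  rw [← map_pow, ← map_pow, ← map_mul] at this
  exact (isIntegral_algebraMap_iff (algebraMap F E).injective).mp this

variable {A L F E : Type*} [CommRing A] [IsDomain A] [IsDiscreteValuationRing A] [Field L]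
  [Field F] [Field E] [Algebra A L] [Algebra L F] [Algebra A F] [IsScalarTower A L F]
  [Algebra F E] [Algebra L E] [Algebra A E] [IsScalarTower L F E] [IsScalarTower A L E]
  [IsScalarTower A F E]
  [FiniteDimensional L F] [FiniteDimensional F E] [FiniteDimensional L E]
  [Algebra.IsSeparable L F] [Algebra.IsSeparable F E] [Algebra.IsSeparable L E]
  {x : L} (hx : IsCoord A x) {π : A} (hπ : Irreducible π)

include hx hπ

/-- **Abstract key lemma.**  `h ∈ F` is congruent to `1` for a valuation `VF` of `F` above the Gauss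
valuation of `L = Frac(A)(x)`; `E = F(W)`, `W ^ n = h`, with `n` invertible in `A` and `μ_n ⊆ A`;
`F/L` is unramified at the Gauss valuation, the codifferent of `E/L` on the generic fibre is
bounded by polynomials which are squarefree modulo `π`, and `E` has no new constants.
Then `W ∈ F`. -/
theorem kummer_main (hconst : ∀ y : E, IsIntegral A y → y ∈ (algebraMap A E).range)
    {Og : Subring L} (hOg : IsLocSub (ndvd (hx.prime hπ)) Og) (hv : Unr Og L F)
    {OK₁ OK₂ : Subring L}
    (hOK₁ : IsLocSub (Submonoid.powers (algebraMap A (Algebra.adjoin A {x}) π)) OK₁)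
    (hOK₂ : IsLocSub (Submonoid.powers (algebraMap A (Algebra.adjoin A {x⁻¹}) π)) OK₂)
    {κ₁ : Algebra.adjoin A {x}} {κ₂ : Algebra.adjoin A {x⁻¹}}
    (hκ₁ : Squarefree (Ideal.Quotient.mk (Ideal.span {algebraMap A (Algebra.adjoin A {x}) π}) κ₁))
    (hκ₂ : Squarefree
      (Ideal.Quotient.mk (Ideal.span {algebraMap A (Algebra.adjoin A {x⁻¹}) π}) κ₂))
    (N : ℕ) (hg₁ : TameBound OK₁ L E (algebraMap _ E κ₁) N)
    (hg₂ : TameBound OK₂ L E (algebraMap _ E κ₂) N)
    (n : ℕ) (hn : n ≠ 0) (hnA : IsUnit (n : A)) (ζ : A) (hζ : IsPrimitiveRoot ζ n)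
    (W : E) (hgen : Algebra.adjoin F {W} = ⊤) (h : F) (hW : W ^ n = algebraMap F E h)
    (VF : ValuationSubring F) (hVF : VF.toSubring.comap (algebraMap L F) = Og)
    (hh : VF.valuation (h - 1) < 1) : W ∈ (algebraMap F E).range := by
  have := hx.frac
  have := hx.isIntegrallyClosed
  have := hx.isNoetherianRing
  by_contra hWF
  have hinjAL : Function.Injective (algebraMap A L) := by
    rw [injective_iff_map_eq_zero]
    intro b hb
    by_contra hb0
    exact hx.trans ⟨Polynomial.C b, by simpa using hb0, by simpa using hb⟩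
  have hinjAE : Function.Injective (algebraMap A E) := by
    rw [IsScalarTower.algebraMap_eq A L E]
    exact (algebraMap L E).injective.comp hinjAL
  have hinjAF : Function.Injective (algebraMap A F) := by
    intro a b hab
    apply hinjAE
    rw [IsScalarTower.algebraMap_apply A F E, hab, ← IsScalarTower.algebraMap_apply A F E]
  -- constants of `F`
  have hconstF : ∀ y : F, IsIntegral A y → y ∈ (algebraMap A F).range := by
    intro y hy
    obtain ⟨a, ha⟩ := hconst _ (hy.algebraMap (B := E))
    refine ⟨a, (algebraMap F E).injective ?_⟩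
    rw [← IsScalarTower.algebraMap_apply A F E, ha]
  -- uniqueness on `F`
  have hg₁F : TameBound OK₁ L F (algebraMap _ F κ₁) N := by
    apply TameBound.bot (E := E)
    rw [← IsScalarTower.algebraMap_apply]
    exact hg₁
  have hg₂F : TameBound OK₂ L F (algebraMap _ F κ₂) N := by
    apply TameBound.bot (E := E)
    rw [← IsScalarTower.algebraMap_apply]
    exact hg₂
  have huniqF : ∀ V : ValuationSubring F, V.toSubring.comap (algebraMap L F) = Og → V = VF :=
    fun V hV => gauss_unique' hx hπ hconstF hOg hv hOK₁ hOK₂ hκ₁ hκ₂ N hg₁F hg₂F V VF hV hVF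
  -- `h` is a unit of `VF`
  have hh1 : VF.valuation h = 1 := by
    have : h = 1 + (h - 1) := by ring
    rw [this]
    exact (VF.valuation.map_add_eq_of_lt_left (by simpa using hh)).trans (map_one _)
  have hh0 : h ≠ 0 := by
    rintro rfl
    simp at hh1
  have hhint : IsIntegral Og h :=
    isIntegral_of_mem_of_unique (hx.prime hπ) hOg VF huniqF
      ((ValuationSubring.valuation_le_one_iff _ _).mp hh1.le)
  have hhint' : IsIntegral Og h⁻¹ :=
    isIntegral_of_mem_of_unique (hx.prime hπ) hOg VF huniqF
      ((ValuationSubring.valuation_le_one_iff _ _).mp (by rw [map_inv₀, hh1, inv_one]))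
  -- `n` is invertible
  obtain ⟨m, hm⟩ := hnA.exists_right_inv
  have hnF : (n : F) * algebraMap A F m = 1 := by
    rw [← map_natCast (algebraMap A F), ← map_mul, hm, map_one]
  have hn0 : (n : F) ≠ 0 := left_ne_zero_of_mul_eq_one hnF
  have hAint : ∀ a : A, IsIntegral Og (algebraMap A F a) := by
    intro a
    have : IsIntegral (Algebra.adjoin A {x}) (algebraMap A F a) := by
      rw [IsScalarTower.algebraMap_apply A (Algebra.adjoin A {x}) F]
      exact isIntegral_algebraMap
    exact hOg.isIntegral_of this
  have hn' : IsIntegral Og ((n : F)⁻¹) := by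
    rw [← eq_inv_of_mul_eq_one_right hnF]
    exact hAint m
  -- `E/L` is unramified at the Gauss valuation
  have hvE : Unr Og L E := hv.trans (Unr.of_kummer W hgen n hn h hW hh0 hhint hhint' hn0 hn')
  -- valuation on `E`
  obtain ⟨VE, hVE⟩ := exists_valuationSubring_comap_eq (E := E) VF
  have hVEL : VE.toSubring.comap (algebraMap L E) = Og := by
    rw [← hVF, ← hVE]
    ext a
    simp only [Subring.mem_comap, ValuationSubring.mem_toSubring, ValuationSubring.mem_comap]
    rw [IsScalarTower.algebraMap_apply L F E]
  have hζF : IsPrimitiveRoot (algebraMap A F ζ) n := hζ.map_of_injective hinjAF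
  obtain ⟨σ, ζ', h1, h2, h3⟩ :=
    exists_algEquiv_of_not_mem n hn _ hζF W hgen h hW hh0 hWF
  apply h2
  have hval : ∀ a : F, VE.valuation (algebraMap F E a) < 1 ↔ VF.valuation a < 1 := by
    intro a
    rw [← not_le, ← not_le, not_iff_not]
    by_cases ha : a = 0
    · subst ha; simp
    rw [← inv_le_one₀ (zero_lt_iff.mpr ((map_ne_zero _).mpr ha)),
      ← inv_le_one₀ (zero_lt_iff.mpr ((map_ne_zero _).mpr ((map_ne_zero _).mpr ha))),
      ← map_inv₀, ← map_inv₀, ← map_inv₀, ValuationSubring.valuation_le_one_iff,
      ValuationSubring.valuation_le_one_iff, ← hVE, ValuationSubring.mem_comap]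
  refine root_of_unity_eq_one VE σ ?_ n hn ?_ _ hζF W ?_ ζ' h1 h3
  · -- `σ` preserves `VE` by uniqueness
    have hσL : ∀ a : L, σ (algebraMap L E a) = algebraMap L E a := fun a => by
      rw [IsScalarTower.algebraMap_apply L F E, σ.commutes]
    have : VE.comap (σ : E →+* E) = VE := by
      refine gauss_unique' hx hπ hconst hOg hvE hOK₁ hOK₂ hκ₁ hκ₂ N hg₁ hg₂ _ _ ?_ hVEL
      rw [← hVEL]
      ext a
      simp only [Subring.mem_comap, ValuationSubring.mem_toSubring, ValuationSubring.mem_comap]
      rw [show (σ : E →+* E) (algebraMap L E a) = σ (algebraMap L E a) from rfl, hσL]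
    intro y
    conv_lhs => rw [← this]
    rfl
  · -- `n` is a unit of `VE`
    have h5 : (n : E) * algebraMap A E m = 1 := by
      rw [← map_natCast (algebraMap A E), ← map_mul, hm, map_one]
    have hAV : ∀ a : A, VE.valuation (algebraMap A E a) ≤ 1 := by
      intro a
      rw [ValuationSubring.valuation_le_one_iff]
      have h6 : algebraMap A L a ∈ Og := by
        rw [IsScalarTower.algebraMap_apply A (Algebra.adjoin A {x}) L]
        exact hOg.algebraMap_mem _
      rw [← hVEL] at h6
      rw [IsScalarTower.algebraMap_apply A L E]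
      exact h6
    have h7 := congrArg VE.valuation h5
    rw [map_mul, map_one] at h7
    have h8 : VE.valuation (n : E) ≤ 1 := by
      rw [← map_natCast (algebraMap A E)]; exact hAV _
    exact le_antisymm h8 (by
      by_contra hlt
      have := mul_lt_one_of_lt_of_le (not_le.mp hlt) (hAV m)
      rw [h7] at this
      exact lt_irrefl _ this)
  · rw [hW, ← map_one (algebraMap F E), ← map_sub]
    exact (hval _).mpr hh

end Fermat.Agent.KLB
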